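import Mathlib

/-
# W7 (S42 / S29), package (LIN) (helper25): the linear algebra behind CORE

`κ` an algebraically closed field (any characteristic), `Γ` a group, `ρ : Γ →* End_κ(M)` a
nonzero finite-dimensional representation, `d : Γ →* κˣ` a character, and suppose that every
`g ∈ Γ` satisfies `ρ(g) + d(g) ρ(g)⁻¹ = a(g)` (a scalar).  Then there is a 2-dimensional
representation `ρ'` with `charpoly ρ'(g) = X² - a(g) X + d(g)` for ALL `g`, trivial on every `g`
with `ρ(g) = 1` and `d(g) = 1` (`lin_exists`).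

Proof (elementary, no density theorem): the hypothesis at `g`, `k`, `g k` gives
`XY + YX = a(k) X + a(g) Y + (a(gk) - a(g) a(k))` for `X = ρ g`, `Y = ρ k` (`lin_anticomm`); so on
a simple subrepresentation `W`, if `Y w = μ w` then `Y - (a(k) - μ)` maps `W` into the line
`κ w` (`lin_range_le`); hence every eigenspace of a non-scalar `Y` is a line and `dim W ≤ 2` by
rank-nullity (`lin_finrank_le_two`).  If `dim W = 2` then `tr = a`, `det = d` on `W`
(`lin_charpoly_finrank_two`); if `dim W = 1` with character `ψ`, take `ψ ⊕ d ψ⁻¹` (`linDiag`).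

* `lin_pow`, `lin_pow_group` : `F + δ F⁻¹` scalar ⟹ `F ^ k + δ ^ k F ^ (-k)` scalar;
* `lin_exists`, `lin_exists_sub` : the statement above (for `M`, resp. for a stable
  finite-dimensional subspace `W₀` of an arbitrary `M`);
* `lin_exists_of_dense`, `lin_exists_of_dense_sub` : the same from the hypothesis on a set `S`
  of "Frobenius elements" such that every `h ∈ Γ` acts like a power of an element of `S`;
* `isAlgClosed_of_surjective` : a field quotient of `integralClosure ℤ ℂ` is algebraically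
  closed.
-/

set_option autoImplicit false

namespace Fermat.Agent.S42x.Lin.H25

open Polynomial Module

universe u v

section Pow

variable {κ : Type*} [Field κ] {M : Type*} [AddCommGroup M] [Module κ M]

/-- **(L1)** Dickson recursion: if `F + δ F⁻¹` is the scalar `a`, then `F ^ k + δ ^ k F ^ (-k)`
is a scalar for every `k`. -/
theorem lin_pow (F F' : Module.End κ M) (hFF' : F * F' = 1) (hF'F : F' * F = 1) (a δ : κ)
    (h : F + δ • F' = a • (1 : Module.End κ M)) (k : ℕ) :
    ∃ s : κ, F ^ k + δ ^ k • F' ^ k = s • (1 : Module.End κ M) := by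
  have key : ∀ k : ℕ, F ^ (k + 2) + δ ^ (k + 2) • F' ^ (k + 2) =
      (F + δ • F') * (F ^ (k + 1) + δ ^ (k + 1) • F' ^ (k + 1))
        - δ • (F ^ k + δ ^ k • F' ^ k) := by
    intro k
    have e1 : F * F' ^ (k + 1) = F' ^ k := by rw [pow_succ', ← mul_assoc, hFF', one_mul]
    have e2 : F' * F ^ (k + 1) = F ^ k := by rw [pow_succ', ← mul_assoc, hF'F, one_mul]
    have e3 : F * F ^ (k + 1) = F ^ (k + 2) := (pow_succ' F (k + 1)).symm
    have e4 : F' * F' ^ (k + 1) = F' ^ (k + 2) := (pow_succ' F' (k + 1)).symm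
    rw [add_mul, mul_add, mul_add, mul_smul_comm, smul_mul_assoc, smul_mul_assoc,
      mul_smul_comm, e1, e2, e3, e4]
    module
  have both : ∀ k : ℕ, (∃ s : κ, F ^ k + δ ^ k • F' ^ k = s • (1 : Module.End κ M)) ∧
      (∃ s : κ, F ^ (k + 1) + δ ^ (k + 1) • F' ^ (k + 1) = s • (1 : Module.End κ M)) := by
    intro k
    induction k with
    | zero =>
      refine ⟨⟨2, ?_⟩, ⟨a, ?_⟩⟩
      · simp only [pow_zero, one_smul]
        module
      · simpa using h
    | succ k ih =>
      obtain ⟨⟨s₀, h₀⟩, ⟨s₁, h₁⟩⟩ := ih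
      refine ⟨⟨s₁, h₁⟩, ⟨a * s₁ - δ * s₀, ?_⟩⟩
      rw [key k, h, h₁, h₀, smul_mul_smul_comm, mul_one, smul_smul, sub_smul]
  exact (both k).1

end Pow

section Simple

variable {Γ : Type*} [Group Γ] {κ : Type*} [Field κ] {W : Type*} [AddCommGroup W] [Module κ W]
  (ρ : Γ →* Module.End κ W) (d : Γ →* κˣ) (a : Γ → κ)

/-- The anticommutator identity: the hypothesis at `g`, `k` and `g * k` gives
`XY + YX = a(k) X + a(g) Y + (a(gk) - a(g) a(k))`. -/
theorem lin_anticomm (h : ∀ g, ρ g + ((d g : κˣ) : κ) • ρ g⁻¹ = a g • (1 : Module.End κ W))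
    (g k : Γ) :
    ρ g * ρ k + ρ k * ρ g =
      a k • ρ g + a g • ρ k + (a (g * k) - a g * a k) • (1 : Module.End κ W) := by
  have hg : ((d g : κˣ) : κ) • ρ g⁻¹ = a g • (1 : Module.End κ W) - ρ g :=
    eq_sub_of_add_eq' (h g)
  have hk : ((d k : κˣ) : κ) • ρ k⁻¹ = a k • (1 : Module.End κ W) - ρ k :=
    eq_sub_of_add_eq' (h k)
  have hgk : ((d (g * k) : κˣ) : κ) • ρ (g * k)⁻¹ = a (g * k) • (1 : Module.End κ W) - ρ (g * k) :=
    eq_sub_of_add_eq' (h (g * k))
  have e : ((d (g * k) : κˣ) : κ) • ρ (g * k)⁻¹ =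
      (((d k : κˣ) : κ) • ρ k⁻¹) * (((d g : κˣ) : κ) • ρ g⁻¹) := by
    rw [mul_inv_rev, map_mul, map_mul, Units.val_mul, smul_mul_smul_comm, mul_comm]
  rw [hg, hk, hgk, map_mul] at e
  have e' : a (g * k) • (1 : Module.End κ W) - ρ g * ρ k =
      (a k * a g) • (1 : Module.End κ W) - a k • ρ g - a g • ρ k + ρ k * ρ g := by
    rw [e, sub_mul, mul_sub, mul_sub, smul_mul_smul_comm, mul_one, smul_mul_assoc, one_mul,
      mul_smul_comm, mul_one]
    abel
  have e'' : ρ g * ρ k + ρ k * ρ g = a (g * k) • (1 : Module.End κ W)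
      - ((a k * a g) • (1 : Module.End κ W) - a k • ρ g - a g • ρ k) := by
    rw [eq_sub_iff_add_eq, ← sub_eq_iff_eq_add'] at *
    rw [← e']
    abel
  rw [e'']
  module


/-- `ρ` has no proper nonzero invariant subspace. -/
def LinSimple (ρ : Γ →* Module.End κ W) : Prop :=
  ∀ U : Submodule κ W, (∀ g, ∀ x ∈ U, ρ g x ∈ U) → U = ⊥ ∨ U = ⊤

variable {ρ}

/-- In a simple representation the orbit of a nonzero vector spans. -/
theorem lin_span_orbit (hs : LinSimple ρ) (w : W) (hw : w ≠ 0) :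
    Submodule.span κ (Set.range fun g => ρ g w) = ⊤ := by
  have hinv : ∀ g, ∀ x ∈ Submodule.span κ (Set.range fun g => ρ g w),
      ρ g x ∈ Submodule.span κ (Set.range fun g => ρ g w) := by
    intro g x hx
    have hle : Submodule.span κ (Set.range fun g => ρ g w) ≤
        (Submodule.span κ (Set.range fun g => ρ g w)).comap (ρ g) := by
      rw [Submodule.span_le]
      rintro _ ⟨k, rfl⟩
      refine Submodule.subset_span ⟨g * k, ?_⟩
      simp only [map_mul, Module.End.mul_apply]
    exact hle hx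
  rcases hs _ hinv with h | h
  · exfalso
    have hmem : w ∈ Submodule.span κ (Set.range fun g => ρ g w) :=
      Submodule.subset_span ⟨1, by simp⟩
    rw [h] at hmem
    exact hw ((Submodule.mem_bot κ).mp hmem)
  · exact h

variable {d a}

/-- **Key step.** If `w` is an eigenvector of `Y = ρ k` for the eigenvalue `μ`, then
`Y - (a k - μ)` maps `W` into the line `κ w`. -/
theorem lin_range_le (h : ∀ g, ρ g + ((d g : κˣ) : κ) • ρ g⁻¹ = a g • (1 : Module.End κ W))
    (hs : LinSimple ρ) (k : Γ) (μ : κ) (w : W) (hw : w ≠ 0) (hμ : ρ k w = μ • w) :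
    LinearMap.range (ρ k - (a k - μ) • (1 : Module.End κ W)) ≤ Submodule.span κ {w} := by
  rw [LinearMap.range_le_iff_comap, eq_top_iff, ← lin_span_orbit hs w hw, Submodule.span_le]
  rintro _ ⟨g, rfl⟩
  have key := congrArg (fun T : Module.End κ W => T w) (lin_anticomm ρ d a h g k)
  simp only [LinearMap.add_apply, Module.End.mul_apply, LinearMap.smul_apply,
    Module.End.one_apply, hμ, map_smul] at key
  rw [SetLike.mem_coe, Submodule.mem_comap, Submodule.mem_span_singleton]
  refine ⟨a g * μ + (a (g * k) - a g * a k), ?_⟩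
  simp only [LinearMap.sub_apply, LinearMap.smul_apply, Module.End.one_apply]
  have key' : ρ k (ρ g w) = a k • ρ g w + a g • μ • w + (a (g * k) - a g * a k) • w
      - μ • ρ g w := eq_sub_of_add_eq' key
  rw [key']
  module

/-- A simple representation all of whose elements satisfy `X + d X⁻¹ = a` has dimension `≤ 2`. -/
theorem lin_finrank_le_two [IsAlgClosed κ] [FiniteDimensional κ W] [Nontrivial W]
    (h : ∀ g, ρ g + ((d g : κˣ) : κ) • ρ g⁻¹ = a g • (1 : Module.End κ W))
    (hs : LinSimple ρ) : Module.finrank κ W ≤ 2 := by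
  have hspan1 : ∀ w : W, Module.finrank κ (Submodule.span κ {w}) ≤ 1 := by
    intro w
    by_cases hw : w = 0
    · rw [hw, Submodule.span_zero_singleton, finrank_bot]
      exact Nat.zero_le _
    · rw [finrank_span_singleton hw]
  by_cases hsc : ∀ g, ∃ c : κ, ρ g = c • (1 : Module.End κ W)
  · obtain ⟨w, hw⟩ := exists_ne (0 : W)
    have htop : (⊤ : Submodule κ W) ≤ Submodule.span κ {w} := by
      rw [← lin_span_orbit hs w hw, Submodule.span_le]
      rintro _ ⟨g, rfl⟩
      obtain ⟨c, hc⟩ := hsc g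
      simp only [hc, LinearMap.smul_apply, Module.End.one_apply, SetLike.mem_coe]
      exact Submodule.smul_mem _ _ (Submodule.mem_span_singleton_self w)
    have h1 : Module.finrank κ W ≤ 1 := by
      calc Module.finrank κ W = Module.finrank κ (⊤ : Submodule κ W) := (finrank_top κ W).symm
        _ ≤ Module.finrank κ (Submodule.span κ {w}) := Submodule.finrank_mono htop
        _ ≤ 1 := hspan1 w
    omega
  · obtain ⟨k, hk⟩ := not_forall.mp hsc
    obtain ⟨μ, hμ⟩ := Module.End.exists_eigenvalue (ρ k)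
    obtain ⟨w, hw⟩ := hμ.exists_hasEigenvector
    have hrange : Module.finrank κ
        (LinearMap.range (ρ k - (a k - μ) • (1 : Module.End κ W))) ≤ 1 :=
      (Submodule.finrank_mono (lin_range_le h hs k μ w hw.2 hw.apply_eq_smul)).trans (hspan1 w)
    have hker : Module.finrank κ
        (LinearMap.ker (ρ k - (a k - μ) • (1 : Module.End κ W))) ≤ 1 := by
      by_cases hbot : LinearMap.ker (ρ k - (a k - μ) • (1 : Module.End κ W)) = ⊥
      · rw [hbot, finrank_bot]
        exact Nat.zero_le _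
      · obtain ⟨u, hu, hu0⟩ := Submodule.exists_mem_ne_zero_of_ne_bot hbot
        have hval : ∀ u' ∈ LinearMap.ker (ρ k - (a k - μ) • (1 : Module.End κ W)),
            ρ k u' = (a k - μ) • u' := by
          intro u' hu'
          rw [LinearMap.mem_ker, LinearMap.sub_apply, LinearMap.smul_apply,
            Module.End.one_apply, sub_eq_zero] at hu'
          exact hu'
        have hrng : ∀ u' ∈ LinearMap.ker (ρ k - (a k - μ) • (1 : Module.End κ W)), u' ≠ 0 →
            LinearMap.range (ρ k - μ • (1 : Module.End κ W)) ≤ Submodule.span κ {u'} := by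
          intro u' hu' hu'0
          have := lin_range_le h hs k (a k - μ) u' hu'0 (hval u' hu')
          rwa [sub_sub_cancel] at this
        obtain ⟨v, hv⟩ : ∃ v, (ρ k - μ • (1 : Module.End κ W)) v ≠ 0 := by
          by_contra hcon
          refine hk ⟨μ, LinearMap.ext fun v => ?_⟩
          have := not_not.mp (not_exists.mp hcon v)
          rwa [LinearMap.sub_apply, sub_eq_zero] at this
        have hle : LinearMap.ker (ρ k - (a k - μ) • (1 : Module.End κ W)) ≤
            Submodule.span κ {u} := by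
          intro u' hu'
          by_cases hu'0 : u' = 0
          · rw [hu'0]
            exact zero_mem _
          · obtain ⟨c, hc⟩ := Submodule.mem_span_singleton.mp (hrng u hu hu0 ⟨v, rfl⟩)
            obtain ⟨c', hc'⟩ := Submodule.mem_span_singleton.mp (hrng u' hu' hu'0 ⟨v, rfl⟩)
            have hc'0 : c' ≠ 0 := by
              rintro rfl
              rw [zero_smul] at hc'
              exact hv hc'.symm
            rw [Submodule.mem_span_singleton]
            refine ⟨c'⁻¹ * c, ?_⟩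
            rw [mul_smul, hc, ← hc', smul_smul, inv_mul_cancel₀ hc'0, one_smul]
        exact (Submodule.finrank_mono hle).trans (hspan1 u)
    have hrn := LinearMap.finrank_range_add_finrank_ker
      (ρ k - (a k - μ) • (1 : Module.End κ W))
    omega

end Simple


section Charpoly

variable {κ : Type*} [Field κ] {W : Type*} [AddCommGroup W] [Module κ W]
  [FiniteDimensional κ W]

/-- On a 2-dimensional space, `charpoly f = X² - tr(f) X + det(f)`. -/
theorem lin_charpoly_two (hW : Module.finrank κ W = 2) (f : Module.End κ W) :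
    f.charpoly = X ^ 2 - C (LinearMap.trace κ W f) * X + C (LinearMap.det f) := by
  have b := Module.finBasisOfFinrankEq κ W hW
  rw [← LinearMap.charpoly_toMatrix f b, Matrix.charpoly_fin_two,
    LinearMap.trace_eq_matrix_trace κ b f, LinearMap.det_toMatrix b f]

/-- Two monic quadratic relations for a non-scalar endomorphism coincide. -/
theorem lin_quad_unique {V : Type*} [AddCommGroup V] [Module κ V] [Nontrivial V]
    (f : Module.End κ V) (a δ t D : κ)
    (h1 : f * f - t • f + D • (1 : Module.End κ V) = 0)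
    (hf : f * f - a • f + δ • (1 : Module.End κ V) = 0)
    (hns : ¬ ∃ c : κ, f = c • (1 : Module.End κ V)) : t = a ∧ D = δ := by
  have hdiff : (a - t) • f + (D - δ) • (1 : Module.End κ V) = 0 := by
    have e : (a - t) • f + (D - δ) • (1 : Module.End κ V)
        = (f * f - t • f + D • (1 : Module.End κ V))
          - (f * f - a • f + δ • (1 : Module.End κ V)) := by module
    rw [e, h1, hf, sub_zero]
  have htr : t = a := by
    by_contra hne
    have hne' : a - t ≠ 0 := sub_ne_zero.mpr (Ne.symm hne)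
    refine hns ⟨-(a - t)⁻¹ * (D - δ), ?_⟩
    have e1 : (a - t) • f = -((D - δ) • (1 : Module.End κ V)) :=
      eq_neg_of_add_eq_zero_left hdiff
    calc f = (a - t)⁻¹ • ((a - t) • f) := by rw [smul_smul, inv_mul_cancel₀ hne', one_smul]
      _ = (a - t)⁻¹ • (-((D - δ) • (1 : Module.End κ V))) := by rw [e1]
      _ = (-(a - t)⁻¹ * (D - δ)) • (1 : Module.End κ V) := by module
  refine ⟨htr, ?_⟩
  rw [htr, sub_self, zero_smul, zero_add] at hdiff
  have h1' : (1 : Module.End κ V) ≠ 0 := one_ne_zero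
  exact sub_eq_zero.mp ((smul_eq_zero.mp hdiff).resolve_right h1')

/-- On a 2-dimensional space, a non-scalar endomorphism killed by `X² - a X + δ` has this
characteristic polynomial. -/
theorem lin_charpoly_of_not_scalar (hW : Module.finrank κ W = 2) (f : Module.End κ W) (a δ : κ)
    (hf : f * f - a • f + δ • (1 : Module.End κ W) = 0)
    (hns : ¬ ∃ c : κ, f = c • (1 : Module.End κ W)) :
    f.charpoly = X ^ 2 - C a * X + C δ := by
  have hnt : Nontrivial W := Module.nontrivial_of_finrank_pos (R := κ) (by omega)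
  have h2 := lin_charpoly_two hW f
  have hCH := LinearMap.aeval_self_charpoly f
  rw [h2] at hCH
  simp only [map_add, map_sub, map_mul, aeval_X, aeval_C,
    Algebra.algebraMap_eq_smul_one, smul_mul_assoc, one_mul, pow_two] at hCH
  obtain ⟨htr, hdet⟩ := lin_quad_unique f a δ _ _ hCH hf hns
  rw [h2, htr, hdet]

/-- On a 1-dimensional space every endomorphism is the scalar `det f`. -/
theorem lin_eq_det_smul (hW : Module.finrank κ W = 1) (f : Module.End κ W) :
    f = LinearMap.det f • (1 : Module.End κ W) := by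
  have hnt : Nontrivial W := Module.nontrivial_of_finrank_pos (R := κ) (by omega)
  obtain ⟨w, hw⟩ := exists_ne (0 : W)
  have hall := (finrank_eq_one_iff_of_nonzero' w hw).mp hW
  obtain ⟨c, hc⟩ := hall (f w)
  have hf : f = c • (1 : Module.End κ W) := by
    refine LinearMap.ext fun v => ?_
    obtain ⟨t, rfl⟩ := hall v
    rw [map_smul, ← hc, LinearMap.smul_apply, Module.End.one_apply, smul_comm]
  have hdet : LinearMap.det f = c := by
    rw [hf, LinearMap.det_smul, hW, pow_one, map_one, mul_one]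
  rw [hdet]
  exact hf

end Charpoly

section Diag

variable {Γ : Type*} [Monoid Γ] {κ : Type u} [Field κ]

/-- The diagonal representation `ψ ⊕ χ` on `κ²`. -/
noncomputable def linDiag (ψ χ : Γ →* κ) : Γ →* Module.End κ (Fin 2 → κ) where
  toFun g := Matrix.toLin' (Matrix.diagonal ![ψ g, χ g])
  map_one' := by
    rw [map_one, map_one]
    have e : (![1, 1] : Fin 2 → κ) = 1 := by
      ext i
      fin_cases i <;> rfl
    rw [e, show Matrix.diagonal (1 : Fin 2 → κ) = 1 from Matrix.diagonal_one,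
      Matrix.toLin'_one]
    rfl
  map_mul' g k := by
    rw [map_mul, map_mul, Module.End.mul_eq_comp, ← Matrix.toLin'_mul,
      Matrix.diagonal_mul_diagonal]
    congr 2
    ext i
    fin_cases i <;> simp

theorem linDiag_apply (ψ χ : Γ →* κ) (g : Γ) :
    linDiag ψ χ g = Matrix.toLin' (Matrix.diagonal ![ψ g, χ g]) := rfl

theorem linDiag_charpoly (ψ χ : Γ →* κ) (g : Γ) :
    (linDiag ψ χ g).charpoly = X ^ 2 - C (ψ g + χ g) * X + C (ψ g * χ g) := by
  rw [linDiag_apply, Matrix.charpoly_toLin', Matrix.charpoly_fin_two, Matrix.trace_fin_two,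
    Matrix.det_fin_two]
  simp

theorem linDiag_eq_one (ψ χ : Γ →* κ) (g : Γ) (hψ : ψ g = 1) (hχ : χ g = 1) :
    linDiag ψ χ g = 1 := by
  rw [linDiag_apply, hψ, hχ]
  have e : (![1, 1] : Fin 2 → κ) = 1 := by
    ext i
    fin_cases i <;> rfl
  rw [e, show Matrix.diagonal (1 : Fin 2 → κ) = 1 from Matrix.diagonal_one,
    Matrix.toLin'_one]
  rfl

end Diag


section Main

variable {Γ : Type*} [Group Γ] {κ : Type u} [Field κ]

section SimpleCase

variable {W : Type u} [AddCommGroup W] [Module κ W]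
  {ρ : Γ →* Module.End κ W} {d : Γ →* κˣ} {a : Γ → κ}

theorem lin_inv_mul (ρ : Γ →* Module.End κ W) (g : Γ) : ρ g⁻¹ * ρ g = 1 := by
  rw [← map_mul, inv_mul_cancel, map_one]

theorem lin_mul_inv (ρ : Γ →* Module.End κ W) (g : Γ) : ρ g * ρ g⁻¹ = 1 := by
  rw [← map_mul, mul_inv_cancel, map_one]

/-- The quadratic relation `X² - a X + d = 0`. -/
theorem lin_quad (h : ∀ g, ρ g + ((d g : κˣ) : κ) • ρ g⁻¹ = a g • (1 : Module.End κ W))
    (g : Γ) : ρ g * ρ g - a g • ρ g + ((d g : κˣ) : κ) • (1 : Module.End κ W) = 0 := by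
  have e := congrArg (fun T : Module.End κ W => T * ρ g) (h g)
  simp only [add_mul, smul_mul_assoc, one_mul, lin_inv_mul] at e
  rw [← e]
  abel

/-- All elements scalar: a simple representation is a line. -/
theorem lin_finrank_le_one [Nontrivial W] (hs : LinSimple ρ)
    (hsc : ∀ g, ∃ c : κ, ρ g = c • (1 : Module.End κ W)) : Module.finrank κ W ≤ 1 := by
  obtain ⟨w, hw⟩ := exists_ne (0 : W)
  have htop : (⊤ : Submodule κ W) ≤ Submodule.span κ {w} := by
    rw [← lin_span_orbit hs w hw, Submodule.span_le]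
    rintro _ ⟨g, rfl⟩
    obtain ⟨c, hc⟩ := hsc g
    simp only [hc, LinearMap.smul_apply, Module.End.one_apply, SetLike.mem_coe]
    exact Submodule.smul_mem _ _ (Submodule.mem_span_singleton_self w)
  calc Module.finrank κ W = Module.finrank κ (⊤ : Submodule κ W) := (finrank_top κ W).symm
    _ ≤ Module.finrank κ (Submodule.span κ {w}) := Submodule.finrank_mono htop
    _ = 1 := finrank_span_singleton hw

/-- **The 2-dimensional case**: trace and determinant are `a` and `d`. -/
theorem lin_charpoly_finrank_two [FiniteDimensional κ W]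
    (h : ∀ g, ρ g + ((d g : κˣ) : κ) • ρ g⁻¹ = a g • (1 : Module.End κ W))
    (hs : LinSimple ρ) (hW : Module.finrank κ W = 2) (g : Γ) :
    (ρ g).charpoly = X ^ 2 - C (a g) * X + C ((d g : κˣ) : κ) := by
  have hnt : Nontrivial W := Module.nontrivial_of_finrank_pos (R := κ) (by omega)
  have h1 : (1 : Module.End κ W) ≠ 0 := one_ne_zero
  by_cases hns : ∃ c : κ, ρ g = c • (1 : Module.End κ W)
  · obtain ⟨c, hc⟩ := hns
    -- a non-scalar element
    obtain ⟨g₀, hg₀⟩ : ∃ g₀, ¬ ∃ c : κ, ρ g₀ = c • (1 : Module.End κ W) := by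
      by_contra hcon
      have hsc : ∀ g, ∃ c : κ, ρ g = c • (1 : Module.End κ W) := fun g =>
        not_not.mp (not_exists.mp hcon g)
      have := lin_finrank_le_one hs hsc
      omega
    have hc0 : c ≠ 0 := by
      rintro rfl
      have := lin_inv_mul ρ g
      rw [hc, zero_smul, mul_zero] at this
      exact h1 this.symm
    have hinv : ρ g⁻¹ = c⁻¹ • (1 : Module.End κ W) := by
      have := lin_inv_mul ρ g
      rw [hc, mul_smul_comm, mul_one] at this
      rw [← this, smul_smul, inv_mul_cancel₀ hc0, one_smul]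
    -- `ρ (g g₀)` is not scalar
    have hgg₀ : ¬ ∃ c' : κ, ρ (g * g₀) = c' • (1 : Module.End κ W) := by
      rintro ⟨c', hc'⟩
      refine hg₀ ⟨c⁻¹ * c', ?_⟩
      rw [map_mul, hc, smul_mul_assoc, one_mul] at hc'
      rw [mul_smul, ← hc', smul_smul, inv_mul_cancel₀ hc0, one_smul]
    have hdet₀ : LinearMap.det (ρ g₀) = ((d g₀ : κˣ) : κ) := by
      have e1 := lin_charpoly_two hW (ρ g₀)
      have e2 := lin_charpoly_of_not_scalar hW (ρ g₀) (a g₀) _ (lin_quad h g₀) hg₀
      have := congrArg (fun p : κ[X] => p.coeff 0) (e1.symm.trans e2)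
      simpa using this
    have hdet₁ : LinearMap.det (ρ (g * g₀)) = ((d (g * g₀) : κˣ) : κ) := by
      have e1 := lin_charpoly_two hW (ρ (g * g₀))
      have e2 := lin_charpoly_of_not_scalar hW (ρ (g * g₀)) (a (g * g₀)) _
        (lin_quad h (g * g₀)) hgg₀
      have := congrArg (fun p : κ[X] => p.coeff 0) (e1.symm.trans e2)
      simpa using this
    have hd : ((d g : κˣ) : κ) = c ^ 2 := by
      rw [map_mul ρ g g₀, map_mul LinearMap.det, hc, LinearMap.det_smul, hW, map_one, mul_one,
        hdet₀, map_mul d g g₀, Units.val_mul] at hdet₁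
      exact (mul_right_cancel₀ (Units.ne_zero (d g₀)) hdet₁).symm
    have ha : a g = 2 * c := by
      have e := h g
      rw [hc, hinv, hd, smul_smul, ← add_smul] at e
      have e' : (c + c ^ 2 * c⁻¹ - a g) • (1 : Module.End κ W) = 0 := by
        rw [sub_smul, e, sub_self]
      have e'' := (smul_eq_zero.mp e').resolve_right h1
      have : c ^ 2 * c⁻¹ = c := by
        rw [pow_two, mul_assoc, mul_inv_cancel₀ hc0, mul_one]
      rw [this] at e''
      linear_combination -e''
    have htr : LinearMap.trace κ W (ρ g) = a g := by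
      rw [hc, map_smul, LinearMap.trace_one, hW, ha, smul_eq_mul]
      push_cast
      ring
    have hdet : LinearMap.det (ρ g) = ((d g : κˣ) : κ) := by
      rw [hc, LinearMap.det_smul, hW, map_one, mul_one, hd]
    rw [lin_charpoly_two hW (ρ g), htr, hdet]
  · exact lin_charpoly_of_not_scalar hW (ρ g) (a g) _ (lin_quad h g) hns

/-- **(L2) for a simple representation.** -/
theorem lin_exists_of_simple [IsAlgClosed κ] [FiniteDimensional κ W] [Nontrivial W]
    (ρ : Γ →* Module.End κ W) (d : Γ →* κˣ) (a : Γ → κ)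
    (h : ∀ g, ρ g + ((d g : κˣ) : κ) • ρ g⁻¹ = a g • (1 : Module.End κ W))
    (hs : LinSimple ρ) :
    ∃ (V : Type u) (_ : AddCommGroup V) (_ : Module κ V) (_ : Module.Finite κ V)
      (ρ' : Γ →* Module.End κ V),
      Module.finrank κ V = 2 ∧
      (∀ g, LinearMap.charpoly (ρ' g) = X ^ 2 - C (a g) * X + C ((d g : κˣ) : κ)) ∧
      (∀ g, ρ g = 1 → d g = 1 → ρ' g = 1) := by
  have hle := lin_finrank_le_two h hs
  have hpos : 0 < Module.finrank κ W := Module.finrank_pos
  have h1 : (1 : Module.End κ W) ≠ 0 := one_ne_zero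
  rcases Nat.lt_or_ge (Module.finrank κ W) 2 with hlt | hge
  · -- dimension one
    have hW : Module.finrank κ W = 1 := by omega
    let ψ : Γ →* κ := (LinearMap.det : Module.End κ W →* κ).comp ρ
    have hψ : ∀ g, ρ g = ψ g • (1 : Module.End κ W) := fun g => lin_eq_det_smul hW (ρ g)
    have hψinv : ∀ g, ψ g * ψ g⁻¹ = 1 := fun g => by
      rw [← map_mul, mul_inv_cancel, map_one]
    let χ : Γ →* κ :=
      { toFun := fun g => ((d g : κˣ) : κ) * ψ g⁻¹
        map_one' := by simp
        map_mul' := fun g k => by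
          rw [mul_inv_rev, map_mul, map_mul, Units.val_mul]
          ring }
    have hχ : ∀ g, χ g = ((d g : κˣ) : κ) * ψ g⁻¹ := fun g => rfl
    refine ⟨Fin 2 → κ, inferInstance, inferInstance, inferInstance, linDiag ψ χ,
      Module.finrank_fin_fun κ, fun g => ?_, fun g hg hdg => ?_⟩
    · rw [linDiag_charpoly]
      have e := h g
      rw [hψ g, hψ g⁻¹, smul_smul, ← add_smul] at e
      have e' : (ψ g + ((d g : κˣ) : κ) * ψ g⁻¹ - a g) • (1 : Module.End κ W) = 0 := by
        rw [sub_smul, e, sub_self]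
      have e'' := sub_eq_zero.mp ((smul_eq_zero.mp e').resolve_right h1)
      have e3 : ψ g * χ g = ((d g : κˣ) : κ) := by
        rw [hχ, mul_left_comm, hψinv, mul_one]
      rw [hχ g, e'', ← hχ g, e3]
    · have e1 : ψ g = 1 := by
        show LinearMap.det (ρ g) = 1
        rw [hg, map_one]
      have e2 : ψ g⁻¹ = 1 := by
        have := hψinv g
        rwa [e1, one_mul] at this
      refine linDiag_eq_one ψ χ g e1 ?_
      rw [hχ, hdg, e2, Units.val_one, one_mul]
  · have hW : Module.finrank κ W = 2 := le_antisymm hle hge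
    exact ⟨W, inferInstance, inferInstance, inferInstance, ρ, hW,
      fun g => lin_charpoly_finrank_two h hs hW g, fun g hg _ => hg⟩

end SimpleCase


section General

variable {M : Type u} [AddCommGroup M] [Module κ M]

/-- The restriction of a representation to an invariant subspace. -/
noncomputable def linRestrict (ρ : Γ →* Module.End κ M) (W : Submodule κ M)
    (hW : ∀ g, ∀ x ∈ W, ρ g x ∈ W) : Γ →* Module.End κ W where
  toFun g := (ρ g).restrict (hW g)
  map_one' := by
    refine LinearMap.ext fun x => Subtype.ext ?_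
    simp
  map_mul' g k := by
    refine LinearMap.ext fun x => Subtype.ext ?_
    simp

theorem linRestrict_apply (ρ : Γ →* Module.End κ M) (W : Submodule κ M)
    (hW : ∀ g, ∀ x ∈ W, ρ g x ∈ W) (g : Γ) (x : W) :
    ((linRestrict ρ W hW g x : W) : M) = ρ g (x : M) := rfl

/-- A nonzero finite-dimensional representation contains a simple subrepresentation. -/
theorem lin_exists_simple_sub [FiniteDimensional κ M] [Nontrivial M]
    (ρ : Γ →* Module.End κ M) :
    ∃ (W : Submodule κ M) (hW : ∀ g, ∀ x ∈ W, ρ g x ∈ W), W ≠ ⊥ ∧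
      LinSimple (linRestrict ρ W hW) := by
  classical
  have hex : ∃ n : ℕ, ∃ W : Submodule κ M, (∀ g, ∀ x ∈ W, ρ g x ∈ W) ∧ W ≠ ⊥ ∧
      Module.finrank κ W = n :=
    ⟨Module.finrank κ (⊤ : Submodule κ M), ⊤, fun _ _ _ => Submodule.mem_top, top_ne_bot, rfl⟩
  obtain ⟨W, hW, hW0, hn⟩ := Nat.find_spec hex
  refine ⟨W, hW, hW0, fun U' hU' => ?_⟩
  by_cases hU0 : U' = ⊥
  · exact Or.inl hU0
  · right
    -- the image of `U'` in `M`
    have hinj : Function.Injective W.subtype := W.injective_subtype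
    have hUinv : ∀ g, ∀ x ∈ U'.map W.subtype, ρ g x ∈ U'.map W.subtype := by
      rintro g _ ⟨x, hx, rfl⟩
      exact ⟨linRestrict ρ W hW g x, hU' g x hx, rfl⟩
    have hUne : U'.map W.subtype ≠ ⊥ := by
      intro hbot
      refine hU0 ((Submodule.eq_bot_iff _).mpr fun x hx => ?_)
      have hx' : W.subtype x ∈ U'.map W.subtype := Submodule.mem_map_of_mem hx
      rw [hbot, Submodule.mem_bot] at hx'
      exact hinj (by rw [hx', map_zero])
    have hrank : Module.finrank κ (U'.map W.subtype) = Module.finrank κ U' :=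
      LinearEquiv.finrank_eq (Submodule.equivMapOfInjective W.subtype hinj U').symm
    have hmin : Nat.find hex ≤ Module.finrank κ (U'.map W.subtype) :=
      Nat.find_min' hex ⟨U'.map W.subtype, hUinv, hUne, rfl⟩
    have hle : Module.finrank κ U' ≤ Module.finrank κ W := Submodule.finrank_le U'
    have heq : Module.finrank κ U' = Module.finrank κ W := by omega
    exact Submodule.eq_top_of_finrank_eq heq

/-- **(L2)** Let `ρ` be a nonzero finite-dimensional representation of a group `Γ` over an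
algebraically closed field `κ`, `d` a character of `Γ`, and suppose that every `g` satisfies
`ρ g + d(g) ρ(g)⁻¹ = a(g)`.  Then there is a 2-dimensional representation `ρ'` of `Γ` with
`charpoly (ρ' g) = X² - a(g) X + d(g)` for every `g`, trivial on every `g` with `ρ g = 1` and
`d g = 1`. -/
theorem lin_exists [IsAlgClosed κ] [FiniteDimensional κ M] [Nontrivial M]
    (ρ : Γ →* Module.End κ M) (d : Γ →* κˣ) (a : Γ → κ)
    (h : ∀ g, ρ g + ((d g : κˣ) : κ) • ρ g⁻¹ = a g • (1 : Module.End κ M)) :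
    ∃ (V : Type u) (_ : AddCommGroup V) (_ : Module κ V) (_ : Module.Finite κ V)
      (ρ' : Γ →* Module.End κ V),
      Module.finrank κ V = 2 ∧
      (∀ g, LinearMap.charpoly (ρ' g) = X ^ 2 - C (a g) * X + C ((d g : κˣ) : κ)) ∧
      (∀ g, ρ g = 1 → d g = 1 → ρ' g = 1) := by
  obtain ⟨W, hW, hW0, hs⟩ := lin_exists_simple_sub ρ
  have hnt : Nontrivial W := Submodule.nontrivial_iff_ne_bot.mpr hW0
  have hres : ∀ g, linRestrict ρ W hW g + ((d g : κˣ) : κ) • linRestrict ρ W hW g⁻¹ =
      a g • (1 : Module.End κ W) := by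
    intro g
    refine LinearMap.ext fun x => Subtype.ext ?_
    have := congrArg (fun T : Module.End κ M => T (x : M)) (h g)
    simpa [linRestrict_apply] using this
  obtain ⟨V, i1, i2, i3, ρ', h2, hch, hker⟩ := lin_exists_of_simple (linRestrict ρ W hW) d a hres hs
  refine ⟨V, i1, i2, i3, ρ', h2, hch, fun g hg hdg => hker g ?_ hdg⟩
  refine LinearMap.ext fun x => Subtype.ext ?_
  rw [linRestrict_apply, hg]
  rfl

end General

section Sub

variable {M : Type u} [AddCommGroup M] [Module κ M]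

/-- **(L2')** The same for a `Γ`-stable finite-dimensional nonzero subspace `W₀` of an arbitrary
`κ`-module `M` (e.g. the span of a finite orbit). -/
theorem lin_exists_sub [IsAlgClosed κ] (ρ : Γ →* Module.End κ M) (d : Γ →* κˣ) (a : Γ → κ)
    (W₀ : Submodule κ M) [FiniteDimensional κ W₀] (hW₀ : W₀ ≠ ⊥)
    (hinv : ∀ g, ∀ x ∈ W₀, ρ g x ∈ W₀)
    (h : ∀ g, ∀ x ∈ W₀, ρ g x + ((d g : κˣ) : κ) • ρ g⁻¹ x = a g • x) :
    ∃ (V : Type u) (_ : AddCommGroup V) (_ : Module κ V) (_ : Module.Finite κ V)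
      (ρ' : Γ →* Module.End κ V),
      Module.finrank κ V = 2 ∧
      (∀ g, LinearMap.charpoly (ρ' g) = X ^ 2 - C (a g) * X + C ((d g : κˣ) : κ)) ∧
      (∀ g, (∀ x ∈ W₀, ρ g x = x) → d g = 1 → ρ' g = 1) := by
  have hnt : Nontrivial W₀ := Submodule.nontrivial_iff_ne_bot.mpr hW₀
  have hres : ∀ g, linRestrict ρ W₀ hinv g + ((d g : κˣ) : κ) • linRestrict ρ W₀ hinv g⁻¹ =
      a g • (1 : Module.End κ W₀) := by
    intro g
    refine LinearMap.ext fun x => Subtype.ext ?_
    simpa [linRestrict_apply] using h g x x.2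
  obtain ⟨V, i1, i2, i3, ρ', h2, hch, hker⟩ := lin_exists (linRestrict ρ W₀ hinv) d a hres
  refine ⟨V, i1, i2, i3, ρ', h2, hch, fun g hg hdg => hker g ?_ hdg⟩
  refine LinearMap.ext fun x => Subtype.ext ?_
  rw [linRestrict_apply, hg x x.2]
  rfl

end Sub

end Main


section Dense

variable {Γ : Type*} [Group Γ] {κ : Type u} [Field κ] {M : Type u} [AddCommGroup M] [Module κ M]

/-- Group form of `lin_pow`: if `F` satisfies `ρ F + d(F) ρ(F)⁻¹ = a₀` and `h` acts like `F ^ k`
(on `M` and through `d`), then `ρ h + d(h) ρ(h)⁻¹` is a scalar. -/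
theorem lin_pow_group (ρ : Γ →* Module.End κ M) (d : Γ →* κˣ) (F : Γ) (a₀ : κ)
    (hF : ρ F + ((d F : κˣ) : κ) • ρ F⁻¹ = a₀ • (1 : Module.End κ M)) (k : ℕ) (h : Γ)
    (hρ : ρ h = ρ (F ^ k)) (hd : d h = d (F ^ k)) :
    ∃ s : κ, ρ h + ((d h : κˣ) : κ) • ρ h⁻¹ = s • (1 : Module.End κ M) := by
  obtain ⟨s, hs⟩ := lin_pow (ρ F) (ρ F⁻¹) (lin_mul_inv ρ F) (lin_inv_mul ρ F) a₀
    ((d F : κˣ) : κ) hF k
  refine ⟨s, ?_⟩
  have hinv : ρ h⁻¹ = ρ F⁻¹ ^ k := by
    have e1 : ρ h * ρ F⁻¹ ^ k = 1 := by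
      rw [hρ, ← map_pow, ← map_mul, inv_pow, mul_inv_cancel, map_one]
    calc ρ h⁻¹ = ρ h⁻¹ * (ρ h * ρ F⁻¹ ^ k) := by rw [e1, mul_one]
      _ = (ρ h⁻¹ * ρ h) * ρ F⁻¹ ^ k := by rw [mul_assoc]
      _ = ρ F⁻¹ ^ k := by rw [lin_inv_mul, one_mul]
  rw [hinv, hd, hρ, map_pow, map_pow, Units.val_pow_eq_pow_val]
  exact hs

/-- **(L4) = (GAL) + (DENS) ⟹ CORE.**  `S` a set of elements of `Γ` ("Frobenius elements") with
`ρ F + d(F) ρ(F)⁻¹ = a₀(F)` for `F ∈ S`, such that every `h ∈ Γ` acts like a power of some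
`F ∈ S`.  Then there is a 2-dimensional representation `ρ'` with
`charpoly (ρ' F) = X² - a₀(F) X + d(F)` for all `F ∈ S`, trivial on every `g` with `ρ g = 1`
and `d g = 1`. -/
theorem lin_exists_of_dense [IsAlgClosed κ] [FiniteDimensional κ M] [Nontrivial M]
    (ρ : Γ →* Module.End κ M) (d : Γ →* κˣ) (S : Set Γ) (a₀ : Γ → κ)
    (hS : ∀ F ∈ S, ρ F + ((d F : κˣ) : κ) • ρ F⁻¹ = a₀ F • (1 : Module.End κ M))
    (hdense : ∀ h : Γ, ∃ F ∈ S, ∃ k : ℕ, ρ h = ρ (F ^ k) ∧ d h = d (F ^ k)) :
    ∃ (V : Type u) (_ : AddCommGroup V) (_ : Module κ V) (_ : Module.Finite κ V)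
      (ρ' : Γ →* Module.End κ V),
      Module.finrank κ V = 2 ∧
      (∀ F ∈ S, LinearMap.charpoly (ρ' F) = X ^ 2 - C (a₀ F) * X + C ((d F : κˣ) : κ)) ∧
      (∀ g, ρ g = 1 → d g = 1 → ρ' g = 1) := by
  have hall : ∀ h : Γ, ∃ s : κ, ρ h + ((d h : κˣ) : κ) • ρ h⁻¹ = s • (1 : Module.End κ M) := by
    intro h
    obtain ⟨F, hFS, k, hρ, hd⟩ := hdense h
    exact lin_pow_group ρ d F (a₀ F) (hS F hFS) k h hρ hd
  choose a ha using hall
  obtain ⟨V, i1, i2, i3, ρ', h2, hch, hker⟩ := lin_exists ρ d a ha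
  refine ⟨V, i1, i2, i3, ρ', h2, fun F hFS => ?_, hker⟩
  have h1 : (1 : Module.End κ M) ≠ 0 := one_ne_zero
  have e : (a F - a₀ F) • (1 : Module.End κ M) = 0 := by
    rw [sub_smul, ← ha F, ← hS F hFS, sub_self]
  have e' : a F = a₀ F := sub_eq_zero.mp ((smul_eq_zero.mp e).resolve_right h1)
  rw [hch F, e']

/-- **(L4')** The same for a `Γ`-stable finite-dimensional nonzero subspace `W₀` of an arbitrary
`κ`-module `M`. -/
theorem lin_exists_of_dense_sub [IsAlgClosed κ] (ρ : Γ →* Module.End κ M) (d : Γ →* κˣ)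
    (S : Set Γ) (a₀ : Γ → κ) (W₀ : Submodule κ M) [FiniteDimensional κ W₀] (hW₀ : W₀ ≠ ⊥)
    (hinv : ∀ g, ∀ x ∈ W₀, ρ g x ∈ W₀)
    (hS : ∀ F ∈ S, ∀ x ∈ W₀, ρ F x + ((d F : κˣ) : κ) • ρ F⁻¹ x = a₀ F • x)
    (hdense : ∀ h : Γ, ∃ F ∈ S, ∃ k : ℕ, (∀ x ∈ W₀, ρ h x = ρ (F ^ k) x) ∧ d h = d (F ^ k)) :
    ∃ (V : Type u) (_ : AddCommGroup V) (_ : Module κ V) (_ : Module.Finite κ V)
      (ρ' : Γ →* Module.End κ V),
      Module.finrank κ V = 2 ∧
      (∀ F ∈ S, LinearMap.charpoly (ρ' F) = X ^ 2 - C (a₀ F) * X + C ((d F : κˣ) : κ)) ∧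
      (∀ g, (∀ x ∈ W₀, ρ g x = x) → d g = 1 → ρ' g = 1) := by
  have hnt : Nontrivial W₀ := Submodule.nontrivial_iff_ne_bot.mpr hW₀
  have hS' : ∀ F ∈ S, linRestrict ρ W₀ hinv F + ((d F : κˣ) : κ) • linRestrict ρ W₀ hinv F⁻¹ =
      a₀ F • (1 : Module.End κ W₀) := by
    intro F hFS
    refine LinearMap.ext fun x => Subtype.ext ?_
    simpa [linRestrict_apply] using hS F hFS x x.2
  have hdense' : ∀ h : Γ, ∃ F ∈ S, ∃ k : ℕ,
      linRestrict ρ W₀ hinv h = linRestrict ρ W₀ hinv (F ^ k) ∧ d h = d (F ^ k) := by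
    intro h
    obtain ⟨F, hFS, k, hρ, hd⟩ := hdense h
    refine ⟨F, hFS, k, LinearMap.ext fun x => Subtype.ext ?_, hd⟩
    rw [linRestrict_apply, linRestrict_apply]
    exact hρ x x.2
  obtain ⟨V, i1, i2, i3, ρ', h2, hch, hker⟩ :=
    lin_exists_of_dense (linRestrict ρ W₀ hinv) d S a₀ hS' hdense'
  refine ⟨V, i1, i2, i3, ρ', h2, hch, fun g hg hdg => hker g ?_ hdg⟩
  refine LinearMap.ext fun x => Subtype.ext ?_
  rw [linRestrict_apply, hg x x.2]
  rfl

end Dense

section Zbar

/-- **(L3)** Every field which is a quotient of `ℤ̄ = integralClosure ℤ ℂ` is algebraically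
closed. -/
theorem isAlgClosed_of_surjective {κ : Type*} [Field κ] (π : integralClosure ℤ ℂ →+* κ)
    (hπ : Function.Surjective π) : IsAlgClosed κ := by
  refine IsAlgClosed.of_exists_root κ fun p hp hirr => ?_
  obtain ⟨P, hPp, hPdeg, hPm⟩ := Polynomial.lifts_and_degree_eq_and_monic
    ((Polynomial.mem_lifts p).mpr (Polynomial.map_surjective π hπ p)) hp
  have hdeg : (P.map (algebraMap (integralClosure ℤ ℂ) ℂ)).degree ≠ 0 := by
    rw [hPm.degree_map, hPdeg]
    exact (Polynomial.degree_pos_of_irreducible hirr).ne'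
  obtain ⟨z, hz⟩ := IsAlgClosed.exists_root _ hdeg
  have hzint : IsIntegral (integralClosure ℤ ℂ) z :=
    ⟨P, hPm, by rw [Polynomial.eval₂_eq_eval_map]; exact hz⟩
  have hzZ : IsIntegral ℤ z := isIntegral_trans z hzint
  let z' : integralClosure ℤ ℂ := ⟨z, hzZ⟩
  have hPz : P.eval z' = 0 := by
    have hinj : Function.Injective (algebraMap (integralClosure ℤ ℂ) ℂ) :=
      Subtype.val_injective
    apply hinj
    rw [map_zero, ← Polynomial.eval₂_at_apply, ← Polynomial.eval_map]
    exact hz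
  refine ⟨π z', ?_⟩
  rw [← hPp, Polynomial.eval_map, Polynomial.eval₂_at_apply, hPz, map_zero]

end Zbar

end Fermat.Agent.S42x.Lin.H25
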